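/-
Row S26, block PIC, DICT26 (subtask 598; helper25), part 1: local generators of modules.

* `evOf g hs hg` : for a local generator `s` of `L` on `W` and `g : T' ⟶ X` with image in `W`,
  the evaluation `L ⟶ g_* 𝒪_{T'}` ("coordinate with respect to `s`"), sending `s` to `1`;
* `isInvertible_of_hasLocalGenerators` : a module with local generators is invertible;
* `isLocalGenerator_unitSec` : the pull-back of a local generator is a local generator;
* `isLocalGenerator_of_locally` : being a local generator is a local property.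
-/
import Mathlib
import Fermat.Agent.S25.H326.RigLoc
import Fermat.Agent.S25.H505.SectionMap

set_option autoImplicit false
set_option linter.unusedVariables false

universe u

noncomputable section

open CategoryTheory AlgebraicGeometry TopologicalSpace Opposite Limits

namespace Fermat.Agent.S26.H25

open Fermat.Agent.S25.H626 (res resO res_res res_smul res_add app_res hom_ext_apply resO_resO
  unitMod toUnit ofUnit IsLocalGenerator HasLocalGenerators eq_of_locally_eq_M eq_of_locally_eq_O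
  exists_gluing_O resO_mul resO_one)

open Fermat.Agent.S25.H326 (coord coord_add coord_res coord_smul coord_gen coord_smul_gen
  app_resO funMod evFun IsRigidifying adjHom isIso_adjHom nonempty_iso_of_isRigidifying
  mkHom pfOf pfTo pfTo_injective pfTo_smul pfTo_pfOf exists_gluing_M)

open Fermat.Agent.S25.H505 (unitSec secMap)

/-! ### The evaluation attached to a local generator -/

section Ev

variable {X T' : Scheme.{u}} (g : T' ⟶ X) {L : X.Modules} {W : X.Opens} {s : Γ(L, W)}
  (hs : IsLocalGenerator L W s) (hg : ∀ t : T', g t ∈ W)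

include hg in
theorem preimage_le_inf (W' : X.Opens) : g ⁻¹ᵁ W' ≤ g ⁻¹ᵁ (W' ⊓ W) :=
  fun x hx => ⟨hx, hg x⟩

/-- The value of the evaluation: the pull-back along `g` of the coordinate of `s'` with respect
to the local generator `s`. -/
def evVal (W' : X.Opens) (s' : Γ(L, W')) : Γ(T', g ⁻¹ᵁ W') :=
  resO (preimage_le_inf g hg W')
    (g.app (W' ⊓ W) (coord hs inf_le_right (res L (inf_le_left : W' ⊓ W ≤ W') s')))

theorem evVal_add (W' : X.Opens) (s' s'' : Γ(L, W')) :
    evVal g hs hg W' (s' + s'') = evVal g hs hg W' s' + evVal g hs hg W' s'' := by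
  unfold evVal
  rw [res_add, coord_add, map_add]
  exact map_add _ _ _

theorem evVal_res {W' W'' : X.Opens} (h : W'' ≤ W') (s' : Γ(L, W')) :
    evVal g hs hg W'' (res L h s') = resO (g.preimage_mono h) (evVal g hs hg W' s') := by
  unfold evVal
  have h2 : W'' ⊓ W ≤ W' ⊓ W := inf_le_inf h le_rfl
  have e : res L (inf_le_left : W'' ⊓ W ≤ W'') (res L h s') =
      res L h2 (res L (inf_le_left : W' ⊓ W ≤ W') s') := by
    rw [res_res, res_res]
  rw [e, coord_res hs inf_le_right h2, app_resO, resO_resO, resO_resO]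

theorem evVal_smul (W' : X.Opens) (r : Γ(X, W')) (s' : Γ(L, W')) :
    evVal g hs hg W' (r • s') = g.app W' r * evVal g hs hg W' s' := by
  unfold evVal
  rw [res_smul, coord_smul, map_mul, resO_mul, app_resO, resO_resO]
  congr 1
  exact Fermat.Agent.S25.H626.resO_id _

theorem evVal_gen : evVal g hs hg W s = 1 := by
  unfold evVal
  rw [coord_gen hs (inf_le_right : W ⊓ W ≤ W), map_one]
  exact resO_one _

/-- The evaluation `L ⟶ g_* 𝒪_{T'}` attached to a local generator `s` of `L` on `W`, for a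
morphism `g` with image in `W`. -/
def evOf : L ⟶ funMod g :=
  mkHom (fun W' => AddMonoidHom.mk'
      (fun s' => pfOf g _ W' (toUnit T' _ (evVal g hs hg W' s')))
      (fun s' s'' => by
        rw [evVal_add]
        rfl))
    (fun W' W'' h s' => by
      simp only [AddMonoidHom.mk'_apply]
      rw [evVal_res]
      rfl)
    (fun W' r s' => by
      simp only [AddMonoidHom.mk'_apply]
      rw [evVal_smul]
      apply pfTo_injective
      rw [pfTo_smul, pfTo_pfOf, pfTo_pfOf]
      rfl)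

theorem evFun_evOf (W' : X.Opens) (s' : Γ(L, W')) :
    evFun (evOf g hs hg) W' s' = evVal g hs hg W' s' := rfl

theorem isRigidifying_evOf : IsRigidifying (evOf g hs hg) := fun t =>
  ⟨W, s, hg t, hs, by rw [evFun_evOf, evVal_gen]; exact isUnit_one⟩

/-- The adjoint of an evaluation, on the pull-back of a section. -/
theorem adjHom_app_unitSec (ev : L ⟶ funMod g) (W' : X.Opens) (s' : Γ(L, W')) :
    (adjHom ev).app (g ⁻¹ᵁ W') (unitSec g L W' s') = toUnit T' _ (evFun ev W' s') := by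
  have h1 : (Scheme.Modules.pullbackPushforwardAdjunction g).unit.app L ≫
      (Scheme.Modules.pushforward g).map (adjHom ev) = ev := by
    have h0 := (Scheme.Modules.pullbackPushforwardAdjunction g).homEquiv_unit
      (X := L) (Y := unitMod T') (f := adjHom ev)
    rw [← h0]
    exact Equiv.apply_symm_apply _ _
  have h2 := congr((Scheme.Modules.Hom.app $h1 W') s')
  exact h2

end Ev

/-! ### Modules with local generators are invertible -/

theorem isInvertible_of_hasLocalGenerators {X : Scheme.{u}} {M : X.Modules}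
    (h : HasLocalGenerators M) : Scheme.Modules.IsInvertible M := by
  refine ⟨fun x => ?_⟩
  obtain ⟨U, hxU, s, hs⟩ := h x
  have hg : ∀ t : U.toScheme, U.ι t ∈ U := fun t => t.2
  exact ⟨U, hxU, nonempty_iso_of_isRigidifying (evOf U.ι hs hg) (isRigidifying_evOf U.ι hs hg)⟩

/-! ### Trivialisations on an open and local generators -/

section OfIso

variable {Y : Scheme.{u}} (M : Y.Modules) (V : Y.Opens)

/-- A section over `V` which corresponds to `1` under a trivialisation of the restriction of `M`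
to `V` is a local generator on `V`. -/
theorem isLocalGenerator_of_iso
    (E : (Scheme.Modules.pullback V.ι).obj M ≅ unitMod V.toScheme) (s : Γ(M, V))
    (hE : E.hom.app (V.ι ⁻¹ᵁ V) (unitSec V.ι M V s) = toUnit V.toScheme _ 1) :
    IsLocalGenerator M V s := by
  intro W₁ hW₁
  have hW₁' : W₁ ≤ V.ι ''ᵁ (V.ι ⁻¹ᵁ W₁) := by
    rw [Scheme.Hom.image_preimage_eq_opensRange_inf, Scheme.Opens.opensRange_ι]
    exact le_inf hW₁ le_rfl
  have hP := Fermat.Agent.S25.H505.secMap_bijective_of_isOpenImmersion V.ι M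
    (le_rfl : V.ι ⁻¹ᵁ W₁ ≤ V.ι ⁻¹ᵁ W₁) hW₁'
  have hA := Fermat.Agent.S25.H505.appLE_bijective_of_isOpenImmersion V.ι
    (le_rfl : V.ι ⁻¹ᵁ W₁ ≤ V.ι ⁻¹ᵁ W₁) hW₁'
  have hEb : Function.Bijective (E.hom.app (V.ι ⁻¹ᵁ W₁)) :=
    ConcreteCategory.bijective_of_isIso (E.hom.app (V.ι ⁻¹ᵁ W₁))
  have hF := hEb.comp hP
  rw [← Function.Bijective.of_comp_iff' hF]
  have key : ((E.hom.app (V.ι ⁻¹ᵁ W₁)) ∘ (secMap V.ι M (le_rfl : V.ι ⁻¹ᵁ W₁ ≤ V.ι ⁻¹ᵁ W₁))) ∘
      (fun r : Γ(Y, W₁) => r • res M hW₁ s) =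
      (toUnit V.toScheme (V.ι ⁻¹ᵁ W₁)) ∘ (V.ι.appLE W₁ (V.ι ⁻¹ᵁ W₁) le_rfl).hom := by
    funext r
    simp only [Function.comp_apply]
    rw [Fermat.Agent.S25.H505.secMap_smul, Scheme.Modules.Hom.app_smul]
    have h1 : secMap V.ι M (le_rfl : V.ι ⁻¹ᵁ W₁ ≤ V.ι ⁻¹ᵁ W₁) (res M hW₁ s) =
        res ((Scheme.Modules.pullback V.ι).obj M) (V.ι.preimage_mono hW₁)
          (unitSec V.ι M V s) := by
      have := Fermat.Agent.S25.H505.secMap_res_apply V.ι M
        (le_rfl : V.ι ⁻¹ᵁ V ≤ V.ι ⁻¹ᵁ V) (le_rfl : V.ι ⁻¹ᵁ W₁ ≤ V.ι ⁻¹ᵁ W₁) hW₁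
        (V.ι.preimage_mono hW₁) s
      rw [Fermat.Agent.S25.H505.secMap_apply V.ι M (le_rfl : V.ι ⁻¹ᵁ V ≤ V.ι ⁻¹ᵁ V),
        Fermat.Agent.S25.H505.presheaf_map_self] at this
      exact this
    rw [h1, app_res, hE, Fermat.Agent.S25.H626.res_toUnit_one,
      Fermat.Agent.S25.H626.smul_toUnit_one]
  rw [key]
  exact (Fermat.Agent.S25.H626.toUnit_bijective _ _).comp hA

end OfIso

/-! ### Pull-back of local generators -/

section Pullback

variable {X Y : Scheme.{u}} (f : Y ⟶ X) {L : X.Modules} {W : X.Opens} {s : Γ(L, W)}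

/-- The pull-back of a local generator is a local generator. -/
theorem isLocalGenerator_unitSec (hs : IsLocalGenerator L W s) :
    IsLocalGenerator ((Scheme.Modules.pullback f).obj L) (f ⁻¹ᵁ W) (unitSec f L W s) := by
  set V : Y.Opens := f ⁻¹ᵁ W with hV
  have hg : ∀ t : V.toScheme, (V.ι ≫ f) t ∈ W := fun t => t.2
  have hiso := isIso_adjHom (evOf (V.ι ≫ f) hs hg) (isRigidifying_evOf (V.ι ≫ f) hs hg)
  let ρ : (Scheme.Modules.pullback (V.ι ≫ f)).obj L ≅ unitMod V.toScheme :=
    asIso (adjHom (evOf (V.ι ≫ f) hs hg))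
  let E : (Scheme.Modules.pullback V.ι).obj ((Scheme.Modules.pullback f).obj L) ≅
      unitMod V.toScheme := (Scheme.Modules.pullbackComp V.ι f).app L ≪≫ ρ
  refine isLocalGenerator_of_iso _ V E _ ?_
  have h1 := Fermat.Agent.S25.H505.unitSec_comp V.ι f L W s
  have h2 : ((Scheme.Modules.pullbackComp V.ι f).hom.app L).app ((V.ι ≫ f) ⁻¹ᵁ W)
      (((Scheme.Modules.pullbackComp V.ι f).inv.app L).app ((V.ι ≫ f) ⁻¹ᵁ W)
        (unitSec (V.ι ≫ f) L W s)) = unitSec (V.ι ≫ f) L W s := by
    have h : ((Scheme.Modules.pullbackComp V.ι f).inv.app L).app ((V.ι ≫ f) ⁻¹ᵁ W) ≫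
        ((Scheme.Modules.pullbackComp V.ι f).hom.app L).app ((V.ι ≫ f) ⁻¹ᵁ W) = 𝟙 _ := by
      rw [← Scheme.Modules.Hom.comp_app, ← NatTrans.comp_app, Iso.inv_hom_id, NatTrans.id_app]
      rfl
    exact congr($h (unitSec (V.ι ≫ f) L W s))
  have h3 : E.hom.app (V.ι ⁻¹ᵁ V) (unitSec V.ι ((Scheme.Modules.pullback f).obj L) V
      (unitSec f L W s)) =
      (adjHom (evOf (V.ι ≫ f) hs hg)).app ((V.ι ≫ f) ⁻¹ᵁ W) (unitSec (V.ι ≫ f) L W s) := by
    rw [h1]
    exact congrArg ((adjHom (evOf (V.ι ≫ f) hs hg)).app ((V.ι ≫ f) ⁻¹ᵁ W)) h2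
  rw [h3, adjHom_app_unitSec, evFun_evOf, evVal_gen]
  rfl

end Pullback

/-! ### Local generators are local -/

section Local

variable {X : Scheme.{u}} {L : X.Modules}

/-- A section which is a local generator locally is a local generator. -/
theorem isLocalGenerator_of_locally {U : X.Opens} (σ : Γ(L, U)) {ι : Type*} (V : ι → X.Opens)
    (hV : ∀ i, V i ≤ U) (hcov : U ≤ ⨆ i, V i)
    (h : ∀ i, IsLocalGenerator L (V i) (res L (hV i) σ)) : IsLocalGenerator L U σ := by
  intro W hW
  have hcovW : W ≤ ⨆ i, W ⊓ V i := by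
    intro x hx
    obtain ⟨i, hi⟩ := Opens.mem_iSup.mp (hcov (hW hx))
    exact Opens.mem_iSup.mpr ⟨i, hx, hi⟩
  have hres : ∀ i, res L (inf_le_left : W ⊓ V i ≤ W) (res L hW σ) =
      res L (inf_le_right : W ⊓ V i ≤ V i) (res L (hV i) σ) := fun i => by
    rw [res_res, res_res]
  constructor
  · intro a b hab
    simp only at hab
    refine eq_of_locally_eq_O (fun i => W ⊓ V i) W (fun _ => inf_le_left) hcovW a b ?_
    intro i
    apply (h i (W ⊓ V i) inf_le_right).1
    simp only
    rw [← hres i, ← res_smul, ← res_smul, hab]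
  · intro m
    have hex : ∀ i, ∃ a : Γ(X, W ⊓ V i),
        a • res L (inf_le_right : W ⊓ V i ≤ V i) (res L (hV i) σ) =
          res L (inf_le_left : W ⊓ V i ≤ W) m := fun i =>
      (h i (W ⊓ V i) inf_le_right).2 _
    choose a ha using hex
    have hcompat : ∀ i j,
        resO (inf_le_left : (W ⊓ V i) ⊓ (W ⊓ V j) ≤ W ⊓ V i) (a i) =
          resO (inf_le_right : (W ⊓ V i) ⊓ (W ⊓ V j) ≤ W ⊓ V j) (a j) := by
      intro i j
      apply (h i ((W ⊓ V i) ⊓ (W ⊓ V j)) (inf_le_left.trans inf_le_right)).1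
      simp only
      have e1 := congrArg (res L (inf_le_left : (W ⊓ V i) ⊓ (W ⊓ V j) ≤ W ⊓ V i)) (ha i)
      have e2 := congrArg (res L (inf_le_right : (W ⊓ V i) ⊓ (W ⊓ V j) ≤ W ⊓ V j)) (ha j)
      simp only [res_smul, res_res] at e1 e2
      simp only [res_res]
      rw [e1, e2]
    obtain ⟨r, hr⟩ := exists_gluing_O (fun i => W ⊓ V i) W (fun _ => inf_le_left) hcovW a hcompat
    refine ⟨r, ?_⟩
    simp only
    refine eq_of_locally_eq_M L (fun i => W ⊓ V i) W (fun _ => inf_le_left) hcovW _ _ ?_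
    intro i
    rw [res_smul, hr i, hres i, ha i]

end Local

end Fermat.Agent.S26.H25
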