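/-
Row S26, block PIC, DICT26 (subtask 598; helper25), part 2: invertible modules realising a
Čech cocycle.

* `Realizes c L` : `L` has local generators `t x` on `c.U x` with `t x = g x y • t y`;
* `exists_realizes` : every cocycle is realised by an invertible module (gluing);
* `Realizes.isInvertible`.
-/
import Mathlib
import Fermat.Agent.S26.H25.Gen
import Fermat.Agent.S26.Pic.Theory
import Fermat.Agent.S25.H326.Glue

set_option autoImplicit false
set_option linter.unusedVariables false

universe u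

noncomputable section

open CategoryTheory AlgebraicGeometry TopologicalSpace Opposite Limits

namespace Fermat.Agent.S26.H25

open Fermat.Agent.S25.H626 (res resO res_res res_smul res_add app_res hom_ext_apply resO_resO
  unitMod toUnit ofUnit IsLocalGenerator HasLocalGenerators eq_of_locally_eq_M eq_of_locally_eq_O
  exists_gluing_O resO_mul resO_one)

open Fermat.Agent.S25.H326 (LocHom GlueData exists_glue)

open Fermat.Agent.S26.Pic (Cocycle)

variable {X : Scheme.{u}}

/-! ### Units and restriction -/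

theorem coe_res_unit {U V : X.Opens} (h : V ≤ U) (a : Γ(X, U)ˣ) :
    ((Pic.res h a : Γ(X, V)ˣ) : Γ(X, V)) = resO h (a : Γ(X, U)) := rfl

theorem coe_pull_unit {Y : Scheme.{u}} (f : X ⟶ Y) {U : Y.Opens} {V : X.Opens}
    (e : V ≤ f ⁻¹ᵁ U) (a : Γ(Y, U)ˣ) :
    ((Pic.pull f e a : Γ(X, V)ˣ) : Γ(X, V)) = f.appLE U V e (a : Γ(Y, U)) := rfl

/-! ### Generators of the unit module, unit multiples -/

theorem isLocalGenerator_toUnit_one (U : X.Opens) :
    IsLocalGenerator (unitMod X) U (toUnit X U 1) := by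
  intro V h
  have e : (fun r : Γ(X, V) => r • res (unitMod X) h (toUnit X U 1)) = toUnit X V := by
    funext r
    rw [Fermat.Agent.S25.H626.res_toUnit_one, Fermat.Agent.S25.H626.smul_toUnit_one]
  rw [e]
  exact Fermat.Agent.S25.H626.toUnit_bijective X V

theorem isLocalGenerator_smul_unit {L : X.Modules} {U : X.Opens} {s : Γ(L, U)}
    (hs : IsLocalGenerator L U s) (a : Γ(X, U)ˣ) :
    IsLocalGenerator L U ((a : Γ(X, U)) • s) := by
  intro V h
  have e : (fun r : Γ(X, V) => r • res L h ((a : Γ(X, U)) • s)) =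
      (fun r : Γ(X, V) => r • res L h s) ∘ (fun r : Γ(X, V) => r * resO h (a : Γ(X, U))) := by
    funext r
    simp only [Function.comp_apply]
    rw [res_smul, mul_smul]
  rw [e]
  refine (hs V h).comp ?_
  have hu : IsUnit (resO h (a : Γ(X, U))) := Fermat.Agent.S25.H326.isUnit_resO h a.isUnit
  exact Function.bijective_iff_has_inverse.mpr
    ⟨fun r => r * ((hu.unit⁻¹ : Γ(X, V)ˣ) : Γ(X, V)),
      fun r => by simp only [mul_assoc, IsUnit.mul_val_inv, mul_one],
      fun r => by simp only [mul_assoc, IsUnit.val_inv_mul, mul_one]⟩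

/-! ### Modules realising a cocycle -/

/-- The module `L` realises the cocycle `c`: it has local generators `t x` on `c.U x` with
`t x = g x y • t y` on `c.U x ⊓ c.U y`. -/
def Realizes (c : Cocycle X) (L : X.Modules) : Prop :=
  ∃ t : ∀ x, Γ(L, c.U x), (∀ x, IsLocalGenerator L (c.U x) (t x)) ∧
    ∀ x y, res L (inf_le_left : c.U x ⊓ c.U y ≤ c.U x) (t x) =
      ((c.g x y : Γ(X, c.U x ⊓ c.U y)ˣ) : Γ(X, c.U x ⊓ c.U y)) •
        res L (inf_le_right : c.U x ⊓ c.U y ≤ c.U y) (t y)

theorem Realizes.hasLocalGenerators {c : Cocycle X} {L : X.Modules} (h : Realizes c L) :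
    HasLocalGenerators L := by
  obtain ⟨t, ht, -⟩ := h
  exact fun x => ⟨c.U x, c.mem x, t x, ht x⟩

theorem Realizes.isInvertible {c : Cocycle X} {L : X.Modules} (h : Realizes c L) :
    Scheme.Modules.IsInvertible L :=
  isInvertible_of_hasLocalGenerators h.hasLocalGenerators

/-! ### Existence: gluing -/

/-- The gluing data of a cocycle: copies of the unit module, glued by the transition units. -/
def glueData (c : Cocycle X) : GlueData X X where
  G := c.U
  P := fun _ => unitMod X
  τ := fun x y => LocHom.smul ((c.g x y : Γ(X, c.U x ⊓ c.U y)ˣ) : Γ(X, c.U x ⊓ c.U y))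
    (LocHom.id _ _)
  τ_self := fun x W hW s => by
    rw [LocHom.smul_app, ← coe_res_unit, c.g_self_on hW]
    simp
  τ_cocycle := fun x y z W hxy hyz hxz s => by
    rw [LocHom.smul_app, LocHom.smul_app, LocHom.smul_app]
    simp only [LocHom.id_app]
    rw [smul_smul, ← coe_res_unit, ← coe_res_unit, ← coe_res_unit, ← Units.val_mul, mul_comm,
      c.cocycle_on hxy hyz hxz]

theorem exists_realizes (c : Cocycle X) :
    ∃ L : X.Modules, Scheme.Modules.IsInvertible L ∧ Realizes c L := by
  obtain ⟨M, e, he, hcomp⟩ := exists_glue (glueData c)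
  have heb : ∀ x, (e x).IsBij := fun x W hW => he x W hW
  let t : ∀ x, Γ(M, c.U x) := fun x =>
    ((e x).symm (heb x)).app (c.U x) le_rfl (toUnit X (c.U x) 1)
  have het : ∀ x, (e x).app (c.U x) le_rfl (t x) = toUnit X (c.U x) 1 := fun x =>
    LocHom.apply_symm_apply (e x) (heb x) (c.U x) le_rfl _
  have hR : Realizes c M := by
    refine ⟨t, fun x => ?_, fun x y => ?_⟩
    · exact LocHom.isLocalGenerator_app (LocHom.isBij_symm (e x) (heb x)) le_rfl
        (isLocalGenerator_toUnit_one (c.U x))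
    · apply (he y (c.U x ⊓ c.U y) inf_le_right).1
      have h1 := hcomp x y (c.U x ⊓ c.U y) le_rfl
        (res M (inf_le_left : c.U x ⊓ c.U y ≤ c.U x) (t x))
      rw [← h1, (e y).app_smul, (e x).app_res (c.U x) (c.U x ⊓ c.U y) le_rfl inf_le_left,
        (e y).app_res (c.U y) (c.U x ⊓ c.U y) le_rfl inf_le_right, het x, het y]
      change resO (le_refl _) ((c.g x y : Γ(X, c.U x ⊓ c.U y)ˣ) : Γ(X, c.U x ⊓ c.U y)) •
          res (unitMod X) (inf_le_left : c.U x ⊓ c.U y ≤ c.U x) (toUnit X (c.U x) 1) =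
        ((c.g x y : Γ(X, c.U x ⊓ c.U y)ˣ) : Γ(X, c.U x ⊓ c.U y)) •
          res (unitMod X) (inf_le_right : c.U x ⊓ c.U y ≤ c.U y) (toUnit X (c.U y) 1)
      rw [Fermat.Agent.S25.H626.resO_id, Fermat.Agent.S25.H626.res_toUnit_one,
        Fermat.Agent.S25.H626.res_toUnit_one]
  exact ⟨M, hR.isInvertible, hR⟩

end Fermat.Agent.S26.H25
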