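/-
Row S26, block PIC, DICT26 (subtask 598; helper25), part 3: a module realising a cocycle is
trivial iff the class of the cocycle is trivial.
-/
import Mathlib
import Fermat.Agent.S26.H25.Realizes

set_option autoImplicit false
set_option linter.unusedVariables false

universe u

noncomputable section

open CategoryTheory AlgebraicGeometry TopologicalSpace Opposite Limits

namespace Fermat.Agent.S26.H25

open Fermat.Agent.S25.H626 (res resO res_res res_smul res_add app_res hom_ext_apply resO_resO
  unitMod toUnit ofUnit IsLocalGenerator HasLocalGenerators eq_of_locally_eq_M eq_of_locally_eq_O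
  exists_gluing_O resO_mul resO_one genOf res_genOf bijective_smul_genOf)

open Fermat.Agent.S25.H326 (exists_gluing_M unitHomOfSection unitHomOfSection_app)

open Fermat.Agent.S25.H146 (isLocalGenerator_res bijective_smul_of_isLocalGenerator
  isUnit_of_smul_eq_of_isLocalGenerator)

open Fermat.Agent.S26.Pic (Cocycle cl cl_eq_zero_iff)

variable {X : Scheme.{u}}

/-- A module with a global generator is trivial. -/
theorem nonempty_iso_unit_of_generator {L : X.Modules} (σ : Γ(L, ⊤))
    (hσ : IsLocalGenerator L ⊤ σ) : Nonempty (L ≅ unitMod X) := by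
  have hiso : IsIso (unitHomOfSection L σ) := by
    rw [Scheme.Modules.Hom.isIso_iff_isIso_app]
    intro W
    refine (ConcreteCategory.isIso_iff_bijective (C := Ab) _).mpr ?_
    have e : ((unitHomOfSection L σ).app W : Γ(unitMod X, W) → Γ(L, W)) =
        (fun r : Γ(X, W) => r • res L (le_top : W ≤ ⊤) σ) ∘ ofUnit X W := by
      funext b
      exact unitHomOfSection_app L σ W b
    rw [e]
    exact (hσ W le_top).comp ⟨fun _ _ h => h, fun a => ⟨toUnit X W a, rfl⟩⟩
  exact ⟨(asIso (unitHomOfSection L σ)).symm⟩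

/-- The generator of a trivialised module is a local generator on every open. -/
theorem isLocalGenerator_genOf {L : X.Modules} (e : L ≅ unitMod X) (U : X.Opens) :
    IsLocalGenerator L U (genOf e U) := by
  intro V h
  rw [res_genOf]
  exact bijective_smul_genOf e V

theorem realizes_zero_iff {c : Cocycle X} {L : X.Modules} (hc : Realizes c L) :
    cl c = 0 ↔ Nonempty (L ≅ unitMod X) := by
  obtain ⟨t, ht, hrel⟩ := hc
  rw [cl_eq_zero_iff]
  constructor
  · rintro ⟨V, hV, hle, h, H⟩
    -- the local sections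
    let σ : ∀ x, Γ(L, V x) := fun x =>
      (((h x)⁻¹ : Γ(X, V x)ˣ) : Γ(X, V x)) • res L (hle x) (t x)
    have hσgen : ∀ x, IsLocalGenerator L (V x) (σ x) := fun x =>
      isLocalGenerator_smul_unit (isLocalGenerator_res (ht x) (hle x)) _
    have hcompat : ∀ x y, res L (inf_le_left : V x ⊓ V y ≤ V x) (σ x) =
        res L (inf_le_right : V x ⊓ V y ≤ V y) (σ y) := by
      intro x y
      have h1 := congrArg (res L (inf_le_inf (hle x) (hle y))) (hrel x y)
      rw [res_res, res_smul, res_res] at h1
      simp only [σ]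
      rw [res_smul, res_smul, res_res, res_res, h1, smul_smul, ← coe_res_unit, ← coe_res_unit,
        ← coe_res_unit, ← Units.val_mul]
      congr 2
      rw [map_inv, map_inv, inv_mul_eq_iff_eq_mul, ← H x y, mul_assoc, mul_inv_cancel, mul_one]
    have hcov : (⊤ : X.Opens) ≤ ⨆ x, V x := fun x _ => Opens.mem_iSup.mpr ⟨x, hV x⟩
    obtain ⟨σ₀, hσ₀⟩ := exists_gluing_M L V ⊤ (fun _ => le_top) hcov σ hcompat
    refine nonempty_iso_unit_of_generator σ₀
      (isLocalGenerator_of_locally σ₀ V (fun _ => le_top) hcov fun x => ?_)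
    rw [hσ₀ x]
    exact hσgen x
  · rintro ⟨e⟩
    have hex : ∀ x, ∃ u : Γ(X, c.U x), u • t x = genOf e (c.U x) := fun x =>
      (bijective_smul_of_isLocalGenerator (ht x)).2 _
    choose u hu using hex
    have huu : ∀ x, IsUnit (u x) := fun x =>
      isUnit_of_smul_eq_of_isLocalGenerator (ht x) (isLocalGenerator_genOf e (c.U x)) (hu x)
    have key : ∀ x y, resO (inf_le_left : c.U x ⊓ c.U y ≤ c.U x) (u x) *
        ((c.g x y : Γ(X, c.U x ⊓ c.U y)ˣ) : Γ(X, c.U x ⊓ c.U y)) =
        resO (inf_le_right : c.U x ⊓ c.U y ≤ c.U y) (u y) := by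
      intro x y
      apply (ht y (c.U x ⊓ c.U y) inf_le_right).1
      simp only
      rw [mul_smul, ← hrel x y, ← res_smul, ← res_smul, hu x, hu y, res_genOf, res_genOf]
    refine ⟨c.U, c.mem, fun _ => le_rfl, fun x => ((huu x).unit)⁻¹, fun x y => ?_⟩
    rw [Pic.res_self, map_inv, map_inv, mul_inv_eq_iff_eq_mul, eq_inv_mul_iff_mul_eq]
    apply Units.ext
    rw [Units.val_mul, coe_res_unit, coe_res_unit, IsUnit.unit_spec, IsUnit.unit_spec]
    exact key x y

end Fermat.Agent.S26.H25
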