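/-
Row S26, block PIC, DICT26 (subtask 598; helper25), part 4: the dictionary.

* `realizes_pullback` : the pull-back of a module realising `c` realises the pull-back of `c`;
* `modDict : H687.ModDict Pic.cechPic` : the dictionary between the Čech model of the Picard
  group and invertible modules, in the form consumed by `H687.curveCube`.
-/
import Mathlib
import Fermat.Agent.S26.H25.Zero
import Fermat.Agent.S26.H687.CurveCube

set_option autoImplicit false
set_option linter.unusedVariables false

universe u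

noncomputable section

open CategoryTheory AlgebraicGeometry TopologicalSpace Opposite Limits

namespace Fermat.Agent.S26.H25

open Fermat.Agent.S25.H626 (res resO res_res res_smul res_add app_res hom_ext_apply resO_resO
  unitMod toUnit ofUnit IsLocalGenerator HasLocalGenerators)

open Fermat.Agent.S25.H505 (unitSec secMap)

open Fermat.Agent.S26.Pic (Cocycle cl cl_surjective cechPic map_cl)

variable {X Y : Scheme.{u}}

theorem realizes_pullback (f : X ⟶ Y) {c : Cocycle Y} {L : Y.Modules} (hc : Realizes c L) :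
    Realizes (c.pullback f) ((Scheme.Modules.pullback f).obj L) := by
  obtain ⟨t, ht, hrel⟩ := hc
  refine ⟨fun x => unitSec f L (c.U (f x)) (t (f x)),
    fun x => isLocalGenerator_unitSec f (ht (f x)), fun x y => ?_⟩
  have hle : f ⁻¹ᵁ c.U (f x) ⊓ f ⁻¹ᵁ c.U (f y) ≤ f ⁻¹ᵁ (c.U (f x) ⊓ c.U (f y)) :=
    Pic.inf_preimage_le f _ _
  have h1 := congrArg (secMap f L hle) (hrel (f x) (f y))
  rw [Fermat.Agent.S25.H505.secMap_smul] at h1
  have h2 := Fermat.Agent.S25.H505.secMap_res_apply f L
    (le_rfl : f ⁻¹ᵁ c.U (f x) ≤ f ⁻¹ᵁ c.U (f x)) hle inf_le_left inf_le_left (t (f x))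
  have h3 := Fermat.Agent.S25.H505.secMap_res_apply f L
    (le_rfl : f ⁻¹ᵁ c.U (f y) ≤ f ⁻¹ᵁ c.U (f y)) hle inf_le_right inf_le_right (t (f y))
  rw [Fermat.Agent.S25.H505.secMap_apply f L (le_rfl : f ⁻¹ᵁ c.U (f x) ≤ f ⁻¹ᵁ c.U (f x)),
    Fermat.Agent.S25.H505.presheaf_map_self] at h2
  rw [Fermat.Agent.S25.H505.secMap_apply f L (le_rfl : f ⁻¹ᵁ c.U (f y) ≤ f ⁻¹ᵁ c.U (f y)),
    Fermat.Agent.S25.H505.presheaf_map_self] at h3
  exact h2.symm.trans (h1.trans (congrArg _ h3))

/-- **DICT26** for the Čech model: the dictionary between classes and invertible modules. -/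
def modDict : Fermat.Agent.S26.H687.ModDict cechPic.{u} where
  Rep := fun {X} a L => ∃ c : Cocycle X, cl c = a ∧ Realizes c L
  exists_rep := fun {X} a => by
    obtain ⟨c, rfl⟩ := cl_surjective a
    obtain ⟨L, hL, hR⟩ := exists_realizes c
    exact ⟨L, hL, c, rfl, hR⟩
  rep_zero_iff := fun {X} a L h => by
    obtain ⟨c, rfl, hR⟩ := h
    exact realizes_zero_iff hR
  rep_pullback := fun {X Y} f a L h => by
    obtain ⟨c, rfl, hR⟩ := h
    exact ⟨c.pullback f, (map_cl f c).symm, realizes_pullback f hR⟩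

theorem modDict_rep_iff {X : Scheme.{u}} (a : cechPic.Pic X) (L : X.Modules) :
    modDict.Rep a L ↔ ∃ c : Cocycle X, cl c = a ∧ Realizes c L := Iff.rfl

end Fermat.Agent.S26.H25
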